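/-
S48 / Tower A1 (RES) / sub-tower A1-KUM, leaf `mero` (helper149).

  `dictMero1 (M : ℕ) [NeZero M] : Kum.DictMero (Gamma1 M) (F1.F1Bar M)`

Every element `u` of the function field `ℚ̄ · F₁(M) ⊆ ℚ̄((q))` of `X₁(M)` is a quotient
`u = u₁ / u₂` of two elements which are REALISED by good functions for `Γ₁(M)`.

Proof (port of `S29.M4b.H503.exists_good_div`, done over `ℚ̄` instead of `ℂ`).
`F₁(M) = ℚ(j(q^d) (d ∣ M), P_a (a ≠ 0))`, so `ℚ̄ · F₁(M)` is generated as a FIELD over `ℚ̄` by the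
(embedded) generators, hence every element is a quotient of two elements of the `ℚ̄`-ALGEBRA
generated by them.  The realised series form a `ℚ̄`-subalgebra (`realSub M`) containing
* the `j(q^d)`, `d ∣ M`  (good for `Γ₀(M)`: `S29.H882.AK_le_goodQ`), and
* the division values `P_a`  (avatar `S48.H76.pFun M a`, helper76).
-/
import Fermat.Agent.S48.Kum.Top
import Fermat.Agent.S48.Kum.Basic
import Fermat.Agent.S48.H76.Avatar
import Fermat.Agent.S29.H332.Growth
import Fermat.Agent.S29.H882.GoodQ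

set_option autoImplicit false

noncomputable section

open ModularCurve AlgebraicCurve CongruenceSubgroup UpperHalfPlane IntermediateField
open scoped MatrixGroups Manifold

namespace Fermat.Agent.S48.H149

open Fermat.Agent.S24 Fermat.Agent.S29 Fermat.Agent.S48

/-! ### Generators of the base-changed field -/

section Gens

variable (L : Type*) [Field L] [Algebra ℚ L]

/-- The generators `j(q^d)` (`d ∣ M`) and `P_a` (`a ≠ 0`) of `L · F₁(M)`, as Laurent series over
`L`. -/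
def gens1 (M : ℕ) : Set (LaurentSeries L) :=
  ⇑(coeffEmb L) '' (divisorExpansions M ∪ F1.divGens M)

theorem coeffEmb_mem_adjoin_gens1 (M : ℕ) {y : LaurentSeries ℚ} (hy : y ∈ F1.F1 M) :
    coeffEmb L y ∈ IntermediateField.adjoin L (gens1 L M) := by
  unfold F1.F1 at hy
  refine IntermediateField.adjoin_induction ℚ
    (p := fun y _ => coeffEmb L y ∈ IntermediateField.adjoin L (gens1 L M)) ?_ ?_ ?_ ?_ ?_ hy
  · intro x hx
    exact IntermediateField.subset_adjoin L _ ⟨x, hx, rfl⟩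
  · intro c
    have : coeffEmb L (algebraMap ℚ (LaurentSeries ℚ) c)
        = algebraMap L (LaurentSeries L) (algebraMap ℚ L c) := by
      rw [coeffEmb, Deg457.coeffMap_algebraMap']
    rw [this]
    exact IntermediateField.algebraMap_mem _ _
  · intro x y _ _ hx hy
    rw [map_add]; exact add_mem hx hy
  · intro x _ hx
    rw [map_inv₀]; exact inv_mem hx
  · intro x y _ _ hx hy
    rw [map_mul]; exact mul_mem hx hy

/-- The base-changed function field `L · F₁(M)` is generated over `L` by the generators. -/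
theorem F1L_le_adjoin_gens1 (M : ℕ) :
    F1.F1L L M ≤ IntermediateField.adjoin L (gens1 L M) := by
  rw [F1.F1L, laurentBaseChange, IntermediateField.adjoin_le_iff]
  rintro _ ⟨y, hy, rfl⟩
  exact coeffEmb_mem_adjoin_gens1 L M hy

theorem gens1_subset_F1L (M : ℕ) : gens1 L M ⊆ (F1.F1L L M : Set (LaurentSeries L)) := by
  rintro _ ⟨y, hy, rfl⟩
  exact coeffEmb_mem_laurentBaseChange L (IntermediateField.subset_adjoin ℚ _ hy)

end Gens

/-! ### Good functions for `Γ₁(M)` -/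

theorem T_mem_Gamma1_h149 (M : ℕ) : ModularGroup.T ∈ Gamma1 M := by
  rw [Gamma1_mem]
  simp [ModularGroup.T]

theorem isGood_add_h149 {Γ : Subgroup SL(2, ℤ)} {G H : ℍ → ℂ} (hG : Kum.IsGood Γ G)
    (hH : Kum.IsGood Γ H) : Kum.IsGood Γ (G + H) := by
  obtain ⟨h1, h2, h3⟩ := hG
  obtain ⟨h1', h2', h3'⟩ := hH
  refine ⟨h1.add h1', fun γ hγ τ => ?_, fun g => ?_⟩
  · show G (γ • τ) + H (γ • τ) = G τ + H τ
    rw [h2 γ hγ τ, h2' γ hγ τ]
  · exact (h3 g).add (h3' g)

/-- A good function of level `Γ₀(M)` is good for `Γ₁(M)`. -/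
theorem isGood_Gamma1_of_mem_goodRing {M : ℕ} {f : ℍ → ℂ} (hf : f ∈ H648.goodRing M) :
    Kum.IsGood (Gamma1 M) f :=
  Kum.IsGood.mono (Γ' := Gamma0 M) hf (Gamma1_in_Gamma0 M)

/-- The avatar `pFun M a` of the division value `P_a` is good for `Γ₁(M)`. -/
theorem isGood_pFun (M : ℕ) [NeZero M] (a : ZMod M) : Kum.IsGood (Gamma1 M) (H76.pFun M a) := by
  have hf := H76.pFun_mem_holN M a
  refine ⟨hf.1, fun γ hγ τ => H76.pFun_smul_Gamma1 M a γ hγ τ, fun g => ?_⟩
  obtain ⟨φ, hφ⟩ := hf.2 g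
  exact H332.expGrowth_of_infExp hφ

/-! ### The algebra of realised series -/

/-- The `ℚ̄`-subalgebra of `ℚ̄((q))` of the elements of `ℚ̄ · F₁(M)` which are `q`-expansions of
good functions for `Γ₁(M)`. -/
def realSub (M : ℕ) [NeZero M] : Subalgebra Kbar (LaurentSeries Kbar) where
  carrier := {x | x ∈ F1.F1Bar M ∧
    ∃ G : ℍ → ℂ, Kum.IsGood (Gamma1 M) G ∧ H708.HasQExp 1 G (coeffMap Deg457.iotaC x)}
  mul_mem' := by
    rintro a b ⟨ha, G, hG, hGa⟩ ⟨hb, H, hH, hHb⟩
    refine ⟨mul_mem ha hb, G * H, hG.mul hH, ?_⟩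
    rw [map_mul]
    exact hGa.mul hHb
  add_mem' := by
    rintro a b ⟨ha, G, hG, hGa⟩ ⟨hb, H, hH, hHb⟩
    refine ⟨add_mem ha hb, G + H, isGood_add_h149 hG hH, ?_⟩
    rw [map_add]
    exact hGa.add hHb
  algebraMap_mem' := fun c => by
    refine ⟨(F1.F1Bar M).algebraMap_mem c, fun _ => Deg457.iotaC c,
      Kum.isGood_const _ _, ?_⟩
    have : coeffMap Deg457.iotaC (algebraMap Kbar (LaurentSeries Kbar) c)
        = HahnSeries.C (Deg457.iotaC c) := by
      rw [Deg457.coeffMap_algebraMap', algebraMap_laurentSeries_eq_single]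
      rfl
    rw [this]
    exact H708.HasQExp.const 1 _

theorem mem_realSub {M : ℕ} [NeZero M] {x : LaurentSeries Kbar} :
    x ∈ realSub M ↔ x ∈ F1.F1Bar M ∧
      ∃ G : ℍ → ℂ, Kum.IsGood (Gamma1 M) G ∧ H708.HasQExp 1 G (coeffMap Deg457.iotaC x) :=
  Iff.rfl

/-- The generators are realised. -/
theorem gens1_subset_realSub (M : ℕ) [NeZero M] :
    gens1 Kbar M ⊆ (realSub M : Set (LaurentSeries Kbar)) := by
  rintro _ ⟨y, hy, rfl⟩
  refine ⟨gens1_subset_F1L Kbar M ⟨y, hy, rfl⟩, ?_⟩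
  rw [Deg457.coeffMap_coeffEmb']
  rcases hy with hy | ⟨a, ha, rfl⟩
  · -- `j(q^d)`
    have h1 : coeffEmb ℂ y ∈ Deg457.AK ℂ M := Algebra.subset_adjoin ⟨y, hy, rfl⟩
    obtain ⟨f, hf, hfq⟩ := H882.AK_le_goodQ M h1
    exact ⟨f, isGood_Gamma1_of_mem_goodRing hf, hfq⟩
  · -- `P_a`
    refine ⟨H76.pFun M a, isGood_pFun M a, ?_⟩
    have h := H332.hasQExp_of_infExp (N := 1) (H76.mdiff_pFun M a) (H76.infExp_pFun M ha)
    have e : coeffEmb ℂ (F1.divGen M a) = F1.divGenC ℂ M a := by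
      rw [F1.divGen, coeffEmb, F1.coeffMap_divGenC]
    rw [e]
    exact h

theorem adjoin_gens1_le_realSub (M : ℕ) [NeZero M] :
    Algebra.adjoin Kbar (gens1 Kbar M) ≤ realSub M :=
  Algebra.adjoin_le (gens1_subset_realSub M)

/-! ### The leaf -/

/-- **Leaf `mero` of A1-KUM**: every element of `ℚ̄ · F₁(M)` is a quotient of two realised
elements. -/
theorem dictMero1 (M : ℕ) [NeZero M] : Kum.DictMero (Gamma1 M) (F1.F1Bar M) := by
  intro u
  have h2 := F1L_le_adjoin_gens1 Kbar M u.2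
  rw [IntermediateField.mem_adjoin_iff_div] at h2
  obtain ⟨r, hr, s, hs, hrs⟩ := h2
  obtain ⟨hrF, G₁, hG₁, hq₁⟩ := adjoin_gens1_le_realSub M hr
  obtain ⟨hsF, G₂, hG₂, hq₂⟩ := adjoin_gens1_le_realSub M hs
  by_cases hs0 : s = 0
  · -- then `u = 0`; use `u₁ = 0`, `u₂ = 1`
    have hu0 : u = 0 := by
      apply Subtype.ext
      rw [hrs, hs0, div_zero]
      rfl
    refine ⟨0, 1, 0, 1, one_ne_zero, by rw [hu0, zero_mul], ?_, ?_⟩
    · refine Kum.realises_of_hasQExp ?_ ?_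
      · exact Kum.isGood_const _ 0
      · have := H708.HasQExp.zero 1
        simpa using this
    · refine Kum.realises_of_hasQExp ?_ ?_
      · exact Kum.isGood_const _ 1
      · have := H708.HasQExp.one 1
        simpa using this
  · refine ⟨⟨r, hrF⟩, ⟨s, hsF⟩, G₁, G₂, ?_, ?_, ?_, ?_⟩
    · intro h
      exact hs0 (congrArg Subtype.val h)
    · apply Subtype.ext
      show (u : LaurentSeries Kbar) * s = r
      rw [hrs, div_mul_cancel₀ _ hs0]
    · exact Kum.realises_of_hasQExp hG₁ hq₁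
    · exact Kum.realises_of_hasQExp hG₂ hq₂

end Fermat.Agent.S48.H149
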